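/-
S26 : shared definitions (layer 0).  Blueprint: team report #1232 (helper26).

* `IsBC φ g`   : the `φ`-semilinear map `g : M → M'` exhibits `M'` as the base change of `M`
* `PtF K`      : a set valued functor on `K`-algebras;   `AVF K` : a commutative group functor
* `LBun X`     : an invertible-module valued functor on the points of `X` ("line bundle on `X`")
* `ModFun X`   : a finite-module valued functor with base change ("coherent sheaf on `X`")
* `P1Mod R`    : a quasi-coherent module on `ℙ¹_R`, given on the two standard charts; `H0`, `H1`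
* `Curve K`    : a smooth proper curve given by two Dedekind charts `B0 ⊇ K[x]`, `B1 ⊇ K[1/x]`
* `CMod C R`   : a line bundle on `C × Spec R`;  `CFam C Par` : a family of such
-/
import Mathlib

set_option autoImplicit false

open scoped TensorProduct

universe u

namespace Fermat.Agent.S26

/-! ### Base change along a ring homomorphism, for semilinear maps -/

section IsBC

variable {S S' : Type u} [CommRing S] [CommRing S'] (φ : S →+* S')
  {M M' : Type u} [AddCommGroup M] [Module S M] [AddCommGroup M'] [Module S' M']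

/-- the `S`-linear map underlying a semilinear map (`M'` restricted along `φ`) -/
def semiToLin (g : M →ₛₗ[φ] M') :
    letI := Module.compHom M' φ
    M →ₗ[S] M' :=
  letI := Module.compHom M' φ
  { toFun := g
    map_add' := g.map_add
    map_smul' := fun s m => g.map_smulₛₗ s m }

/-- `g : M → M'`, semilinear over `φ : S → S'`, exhibits `M'` as `S' ⊗[S] M`. -/
def IsBC (g : M →ₛₗ[φ] M') : Prop :=
  letI := φ.toAlgebra
  letI := Module.compHom M' φ
  haveI : IsScalarTower S S' M' := IsScalarTower.of_algebraMap_smul fun _ _ => rfl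
  IsBaseChange S' (semiToLin φ g)

end IsBC

/-! ### Functors of points -/

/-- a set valued functor on `K`-algebras -/
structure PtF (K : Type u) [Field K] where
  pt : ∀ (S : Type u) [CommRing S] [Algebra K S], Type u
  map : ∀ {S S' : Type u} [CommRing S] [Algebra K S] [CommRing S'] [Algebra K S'],
    (S →ₐ[K] S') → pt S → pt S'
  map_id : ∀ {S : Type u} [CommRing S] [Algebra K S] (a : pt S), map (AlgHom.id K S) a = a
  map_comp : ∀ {S S' S'' : Type u} [CommRing S] [Algebra K S] [CommRing S'] [Algebra K S']
    [CommRing S''] [Algebra K S''] (ψ : S' →ₐ[K] S'') (φ : S →ₐ[K] S') (a : pt S),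
    map (ψ.comp φ) a = map ψ (map φ a)

/-- a commutative group functor on `K`-algebras -/
structure AVF (K : Type u) [Field K] extends PtF K where
  [grp : ∀ (S : Type u) [CommRing S] [Algebra K S], AddCommGroup (pt S)]
  map_add : ∀ {S S' : Type u} [CommRing S] [Algebra K S] [CommRing S'] [Algebra K S']
    (φ : S →ₐ[K] S') (a b : pt S), map φ (a + b) = map φ a + map φ b

attribute [instance] AVF.grp

variable {K : Type u} [Field K]

/-- the functor represented by a `K`-algebra -/
def PtF.ofAlg (K : Type u) [Field K] (R₀ : Type u) [CommRing R₀] [Algebra K R₀] : PtF K where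
  pt S _ _ := R₀ →ₐ[K] S
  map φ w := φ.comp w
  map_id _ := rfl
  map_comp _ _ _ := rfl

/-- product of two functors -/
def PtF.prod (X Y : PtF K) : PtF K where
  pt S _ _ := X.pt S × Y.pt S
  map φ a := (X.map φ a.1, Y.map φ a.2)
  map_id a := by simp [X.map_id, Y.map_id]
  map_comp ψ φ a := by simp [X.map_comp, Y.map_comp]

/-- a "line bundle" on the functor `X` -/
structure LBun (X : PtF K) where
  M : ∀ {S : Type u} [CommRing S] [Algebra K S], X.pt S → Type u
  [acg : ∀ {S : Type u} [CommRing S] [Algebra K S] (a : X.pt S), AddCommGroup (M a)]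
  [mod : ∀ {S : Type u} [CommRing S] [Algebra K S] (a : X.pt S), Module S (M a)]
  inv : ∀ {S : Type u} [CommRing S] [Algebra K S] (a : X.pt S), Module.Invertible S (M a)
  bc : ∀ {S S' : Type u} [CommRing S] [Algebra K S] [CommRing S'] [Algebra K S']
    (φ : S →ₐ[K] S') {a : X.pt S} {a' : X.pt S'}, X.map φ a = a' → (M a →ₛₗ[φ.toRingHom] M a')
  bc_span : ∀ {S S' : Type u} [CommRing S] [Algebra K S] [CommRing S'] [Algebra K S']
    (φ : S →ₐ[K] S') {a : X.pt S} {a' : X.pt S'} (h : X.map φ a = a'),
    Submodule.span S' (Set.range (bc φ h)) = ⊤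
  bc_id : ∀ {S : Type u} [CommRing S] [Algebra K S] (a : X.pt S)
    (h : X.map (AlgHom.id K S) a = a) (m : M a), bc (AlgHom.id K S) h m = m
  bc_comp : ∀ {S S' S'' : Type u} [CommRing S] [Algebra K S] [CommRing S'] [Algebra K S']
    [CommRing S''] [Algebra K S''] (ψ : S' →ₐ[K] S'') (φ : S →ₐ[K] S') {a : X.pt S}
    {a' : X.pt S'} {a'' : X.pt S''} (h : X.map φ a = a') (h' : X.map ψ a' = a'')
    (h'' : X.map (ψ.comp φ) a = a'') (m : M a), bc ψ h' (bc φ h m) = bc (ψ.comp φ) h'' m

attribute [instance] LBun.acg LBun.mod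

/-- a "coherent sheaf" on the functor `X`: finite modules with base change maps -/
structure ModFun (X : PtF K) where
  H : ∀ {S : Type u} [CommRing S] [Algebra K S], X.pt S → Type u
  [acg : ∀ {S : Type u} [CommRing S] [Algebra K S] (a : X.pt S), AddCommGroup (H a)]
  [mod : ∀ {S : Type u} [CommRing S] [Algebra K S] (a : X.pt S), Module S (H a)]
  fin : ∀ {S : Type u} [CommRing S] [Algebra K S] (a : X.pt S), Module.Finite S (H a)
  bc : ∀ {S S' : Type u} [CommRing S] [Algebra K S] [CommRing S'] [Algebra K S']
    (φ : S →ₐ[K] S') {a : X.pt S} {a' : X.pt S'}, X.map φ a = a' → (H a →ₛₗ[φ.toRingHom] H a')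
  isBC : ∀ {S S' : Type u} [CommRing S] [Algebra K S] [CommRing S'] [Algebra K S']
    (φ : S →ₐ[K] S') {a : X.pt S} {a' : X.pt S'} (h : X.map φ a = a'),
    IsBC φ.toRingHom (bc φ h)

attribute [instance] ModFun.acg ModFun.mod

end Fermat.Agent.S26
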