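/-
S26 / Glue : from the abstract count `#{a ∈ 𝔸(K) : n • a = 0}` to the frozen statement.
-/
import Fermat.Agent.S26.Sch.AVF

set_option autoImplicit false

open CategoryTheory CategoryTheory.Limits AlgebraicGeometry NeronModelInfra GoodReductionJacobian

universe u

namespace Fermat.Agent.S26

variable {K : Type u} [Field K] {A : Scheme.{u}} (f : A ⟶ Spec (CommRingCat.of K))
  (L : RelativeGroupLaw K f) (hc : L.IsCommutative)

theorem glue_strS_self : strS K K = 𝟙 (Spec (CommRingCat.of K)) := by
  rw [strS]
  exact Spec.map_id _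

theorem glue_nsmul {S : Type u} [CommRing S] [Algebra K S] (n : ℕ) (a : (avf f L hc).pt S) :
    n • a = L.nsmul (strS K S) n a := by
  induction n with
  | zero => rw [zero_smul]; rfl
  | succ n ih => rw [succ_nsmul, ih]; rfl

theorem glue_card_aux {T : Scheme.{u}} (t t' : T ⟶ Spec (CommRingCat.of K)) (h : t = t') (n : ℕ) :
    Nat.card {x : SchemeHomOver t f // L.IsTorsionPoint t n x} =
      Nat.card {x : SchemeHomOver t' f // L.IsTorsionPoint t' n x} := by
  subst h
  rfl

theorem glue_card (n : ℕ) :
    Nat.card {x : SchemeHomOver (𝟙 (Spec (CommRingCat.of K))) f //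
        L.IsTorsionPoint (𝟙 (Spec (CommRingCat.of K))) n x} =
      Nat.card {a : (avf f L hc).pt K // n • a = 0} := by
  rw [← glue_card_aux f L (strS K K) (𝟙 _) glue_strS_self n]
  apply Nat.card_congr
  refine Equiv.subtypeEquivRight fun a => ?_
  show L.nsmul (strS K K) n a = L.one (strS K K) ↔ _
  rw [← glue_nsmul f L hc n a]
  rfl

end Fermat.Agent.S26
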