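/-
S26 / Final : the frozen statement from the three contracts (SCH) and the abstract main theorem.
-/
import Fermat.Agent.S26.Glue
import Fermat.Agent.S26.Sch.Contract
import Fermat.Agent.S26.AV.Chain

set_option autoImplicit false

open CategoryTheory CategoryTheory.Limits AlgebraicGeometry NeronModelInfra GoodReductionJacobian

universe u

namespace Fermat.Agent.S26

theorem final (K : Type u) [Field K] [IsAlgClosed K] {A : Scheme.{u}}
    (f : A ⟶ Spec (CommRingCat.of K)) (L : RelativeGroupLaw K f) (hc : L.IsCommutative)
    (hA : AbelianSchemePropertyBundle K f) (g : ℕ) [SmoothOfRelativeDimension g f] (n : ℕ)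
    (hn : (n : K) ≠ 0) :
    Nat.card {x : SchemeHomOver (𝟙 (Spec (CommRingCat.of K))) f //
        L.IsTorsionPoint (𝟙 (Spec (CommRingCat.of K))) n x} = n ^ (2 * g) := by
  rw [glue_card f L hc n]
  exact card_torsion (geoOfScheme f L hc hA g) (hasProj_of_scheme f L hc hA)
    (fun P _ htr => exists_cartDiv f L hc hA g P htr) n hn

end Fermat.Agent.S26
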